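import Fermat.Agent.GR.ES.Assembly
import Fermat.Agent.GR.RT.OrdInputProofAlg
import Fermat.Agent.GR.RT.Cyclotomic
import Fermat.Agent.CFT.Global.UnramKummer
import Fermat.Prelude.Def_GaloisRep_LocalConditions

/-!
# From unipotent inertia on the torsion of the Jacobian to unipotent inertia on Hecke
representations

If `(σ - 1) ^ 2` kills the `p`-power torsion of `J₀(N)` then, by density of Frobenius elements,
`tr r (σσg) + tr r g = 2 tr r (σg)` for the representation `r` over a Hecke ring.  With residual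
absolute irreducibility and cyclotomic determinant this gives trace two and determinant one.
-/

set_option autoImplicit false

attribute [local instance 10000] SubalgebraClass.toAlgebra HahnSeries.powerSeriesAlgebra

noncomputable section

open Polynomial ModularCurve

namespace Fermat.HT.Unip

open Fermat.GR

local notation "ℚbar" => AlgebraicClosure ℚ
local notation "Γℚ" => (AlgebraicClosure ℚ ≃ₐ[ℚ] AlgebraicClosure ℚ)

/-- The action of `σ` is unipotent of order two on the `p`-power torsion of `J₀(N)`. -/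
def InertiaSq (N p : ℕ) [NeZero N] (σ : Γℚ) : Prop :=
  ∀ x : JZero N, (∃ n : ℕ, p ^ n • x = 0) → σ • (σ • x - x) = σ • x - x

section Data

variable {R J : Type} [CommRing R] [Module.Free ℤ R] [Module.Finite ℤ R] [AddCommGroup J]
  [DistribMulAction (AlgebraicClosure ℚ ≃ₐ[ℚ] AlgebraicClosure ℚ) J]
  {M p : ℕ} [Fact p.Prime] {T ε : ℕ → R} (D : ESData R J M p T ε)

/-- Where `(σ - 1)²` kills the torsion, `M (σσg) + M g = 2 M (σg)` for the scaled matrices. -/
theorem bMat_sq {σ : Γℚ} (hσ : ∀ x : J, (∃ n : ℕ, p ^ n • x = 0) → σ • (σ • x - x) = σ • x - x)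
    (g : Γℚ) :
    D.bMat (σ * σ * g) + D.bMat g = D.bMat (σ * g) + D.bMat (σ * g) := by
  have h0 : D.bMat (σ * σ) + D.bMat 1 = D.bMat σ + D.bMat σ := by
    refine ESData.mat_eq_of_forall_modPow fun n => ?_
    rw [map_add, map_add, D.modPow_bMat, D.modPow_bMat, D.modPow_bMat, ← map_add, ← map_add]
    refine ESData.mapMatrix_aMat_eq fun i j => ?_
    have hπ : D.π n (D.img n (σ * σ) j - D.img n σ j) =
        D.π n (D.img n σ j - D.img n 1 j) := by
      simp only [map_sub, D.π_img, ESData.gal_apply, mul_smul, one_smul]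
      rw [← smul_sub]
      exact hσ _ ⟨n, D.torsion_π n _⟩
    have hc := D.coeff_cong hπ i
    rw [D.coeff_sub, D.coeff_sub] at hc
    simp only [Matrix.add_apply, ESData.aMat_apply]
    convert hc using 1
    abel
  have h1 := congrArg (· * D.bMat g) h0
  simp only [add_mul, D.bMat_mul, one_mul] at h1
  rw [← smul_add, ← smul_add] at h1
  exact Matrix.ext fun a c => D.eq_of_k_mul (by
    simpa [Matrix.smul_apply, smul_eq_mul] using congrFun (congrFun h1 a) c)

end Data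

variable {N p : ℕ} [NeZero N] [Fact p.Prime] {S : Finset ℕ}

local notation "R₀" => FullHecke N
local notation "RS" => Subtype (fun t => t ∈ CuspForm.heckeAlgebra N 2 (SetLike.coe S : Set ℕ))

variable {𝒪 : Type} [CommRing 𝒪] [IsDomain 𝒪] [IsDiscreteValuationRing 𝒪]
  [IsAdicComplete (IsLocalRing.maximalIdeal 𝒪) 𝒪]
  {θ : ↥(CuspForm.heckeAlgebra N 2 (↑S : Set ℕ)) →+* IsLocalRing.ResidueField 𝒪}
  {T : Type} [CommRing T] [IsLocalRing T] [IsNoetherianRing T]
  [IsAdicComplete (IsLocalRing.maximalIdeal T) T] [Algebra 𝒪 T] [IsLocalHom (algebraMap 𝒪 T)]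
  [Module.Finite 𝒪 T] [Module.Free 𝒪 T]

/-- One element of the Hecke ring approximates the traces of both representations at `x`. -/
theorem exists_trace_approx (D₀ : ESInput N p) (hpS : p ∈ S)
    (hNS : ∀ q : ℕ, q.Prime → q ∣ N → q ∈ S)
    (H : CuspForm.HeckeGaloisRepDatum N (↑S : Set ℕ) 𝒪 θ T) (n M : ℕ) (x : Γℚ) :
    ∃ P : RS,
      ((matOf H.ρ (someBasis H.ρ) x).trace - H.π P ∈ IsLocalRing.maximalIdeal T ^ n) ∧
      ESData.modPow M ((D₀.toData.k : PComp p R₀) * (D₀.toData.bMat x).trace) =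
        ESData.modPow M ((D₀.toData.k : PComp p R₀) * (D₀.toData.k : PComp p R₀) *
          toPComp p R₀ (heckeIncl N S P)) := by
  have hp : p.Prime := Fact.out
  have hgood : ∀ ℓ : ℕ, ℓ.Prime → ℓ ∉ S → ¬ ℓ ∣ N * p := fun ℓ hℓ hℓS h =>
    (hℓ.dvd_mul.mp h).elim (fun h' => hℓS (hNS ℓ hℓ h')) fun h' =>
      hℓS ((Nat.prime_dvd_prime_iff_eq hℓ hp).mp h' ▸ hpS)
  obtain ⟨L₁, hL₁, h₁⟩ := matCont_matOf H.ρ (someBasis H.ρ) n
  obtain ⟨L₂, hL₂, h₂⟩ := D₀.toData.exists_field M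
  obtain ⟨ℓ, hℓ, hℓS, B, hB, φ, hφ, j, τ, hτ, rfl⟩ :=
    exists_frobenius_pow_mul_fixing (L₁ ⊔ L₂) x S
  have hℓN : ¬ ℓ ∣ N := fun h => hgood ℓ hℓ hℓS (h.mul_right p)
  exact ⟨_, trace_matOf_frobenius_mul_mem H (someBasis H.ρ) hℓ hℓN hℓS hB hφ j
      (h₁ τ fun y hy => hτ y (SetLike.le_def.mp le_sup_left hy)),
    modPow_trace_bMat_frobenius_mul D₀.toData hℓ hℓN hℓS (hgood ℓ hℓ hℓS) hB hφ j M
      (h₂ τ fun y hy => hτ y (SetLike.le_def.mp le_sup_right hy))⟩

/-- The trace identity transported to the Hecke representation. -/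
theorem trace_sq (D₀ : ESInput N p) (hp𝒪 : (p : 𝒪) ∈ IsLocalRing.maximalIdeal 𝒪) (hpS : p ∈ S)
    (hNS : ∀ q : ℕ, q.Prime → q ∣ N → q ∈ S)
    (H : CuspForm.HeckeGaloisRepDatum N (↑S : Set ℕ) 𝒪 θ T) {σ : Γℚ} (hσ : InertiaSq N p σ)
    (g : Γℚ) :
    (matOf H.ρ (someBasis H.ρ) (σ * σ * g)).trace + (matOf H.ρ (someBasis H.ρ) g).trace =
      (matOf H.ρ (someBasis H.ρ) (σ * g)).trace + (matOf H.ρ (someBasis H.ρ) (σ * g)).trace := by
  classical
  have hp : p.Prime := Fact.out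
  let D := D₀.toData
  have hi : Function.Injective (heckeIncl N S) := Subalgebra.inclusion_injective _
  obtain ⟨s, hs0, hs⟩ := exists_saturation_bound (heckeIncl N S)
  obtain ⟨e, u, hu, hsu⟩ := Nat.exists_eq_pow_mul_and_not_dvd
    (mul_ne_zero hs0 (mul_ne_zero D.k_ne_zero D.k_ne_zero)) p hp.one_lt.ne'
  have hpT : (p : T) ∈ IsLocalRing.maximalIdeal T := by
    rw [← map_natCast (algebraMap 𝒪 T)]
    exact map_nonunit (algebraMap 𝒪 T) _ hp𝒪
  refine sub_eq_zero.mp (IsHausdorff.haus inferInstance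
    (I := IsLocalRing.maximalIdeal T) _ fun n => ?_)
  rw [SModEq.zero, smul_eq_mul, Ideal.mul_top]
  set M := n + e with hM
  obtain ⟨P₁, hT₁, hB₁⟩ := exists_trace_approx D₀ hpS hNS H n M (σ * σ * g)
  obtain ⟨P₂, hT₂, hB₂⟩ := exists_trace_approx D₀ hpS hNS H n M (σ * g)
  obtain ⟨P₃, hT₃, hB₃⟩ := exists_trace_approx D₀ hpS hNS H n M g
  have hb := congrArg (fun Y : Matrix (Fin 2) (Fin 2) (PComp p R₀) =>
    ESData.modPow M ((D.k : PComp p R₀) * Y.trace)) (bMat_sq D hσ g)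
  simp only [Matrix.trace_add, mul_add, map_add, hB₁, hB₂, hB₃, D] at hb
  have hdvd : (p : R₀) ^ M ∣ ((D.k * D.k : ℕ) : R₀) * heckeIncl N S (P₁ + P₃ - (P₂ + P₂)) := by
    apply dvd_of_toPComp_dvd
    rw [← map_add, ← map_add] at hb
    have h := (ESData.modPow_eq_iff M _ _).mp hb
    simp only [map_mul, map_natCast, map_sub, map_add, Nat.cast_mul]
    convert h using 1
    simp only [D]
    ring
  set Q : RS := P₁ + P₃ - (P₂ + P₂)
  have hπd : H.π Q ∈ IsLocalRing.maximalIdeal T ^ n := by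
    simpa using map_sub_mem_of_dvd (k := D.k) (e := e) (P₁ := Q) (P₂ := 0) hi H.π hp hpT hu hsu hs
      (by simpa [hM] using hdvd)
  have hsum := add_mem (sub_mem (add_mem hT₁ hT₃) (add_mem hT₂ hT₂)) hπd
  simp only [Q, map_sub, map_add] at hsum
  refine cast (congrArg (fun z => z ∈ IsLocalRing.maximalIdeal T ^ n) ?_) hsum
  ring

/-- The matrices of a residually absolutely irreducible representation span. -/
theorem span_matOf_eq_top (H : CuspForm.HeckeGaloisRepDatum N (↑S : Set ℕ) 𝒪 θ T) :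
    Submodule.span T (Set.range (matOf H.ρ (someBasis H.ρ))) = ⊤ :=
  span_range_matOf_eq_top H.ρ H.residual_absIrr (someBasis H.ρ)

/-- A matrix of determinant one with `tr ((X - 1) ^ 2 Y) = 0` on a spanning set has trace two. -/
theorem trace_eq_two {A : Type} [CommRing A] {ι' : Type*}
    {r : ι' → Matrix (Fin 2) (Fin 2) A} (hspan : Submodule.span A (Set.range r) = ⊤)
    {X : Matrix (Fin 2) (Fin 2) A} (hd : X.det = 1)
    (h : ∀ g, (X * X * r g).trace + (r g).trace = (X * r g).trace + (X * r g).trace) :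
    X.trace = 2 := by
  have hX : (X.trace - 2) • X = 0 := by
    refine RT.eq_zero_of_trace_mul hspan fun g => ?_
    have := h g
    rw [Fermat.DS.mul_self_eq, hd, one_smul, sub_mul, one_mul, Matrix.trace_sub, Matrix.smul_mul,
      Matrix.trace_smul, smul_eq_mul, sub_add_cancel] at this
    rw [Matrix.smul_mul, Matrix.trace_smul, smul_eq_mul]
    linear_combination this
  have h2 := congrArg (fun Z => (Z * X.adjugate) 0 0) hX
  simp only [Matrix.smul_mul, Matrix.mul_adjugate, hd, zero_mul, Matrix.zero_apply,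
    Matrix.smul_apply, Matrix.one_apply_eq, smul_eq_mul, mul_one, one_smul] at h2
  exact sub_eq_zero.mp h2

/-- Inertia at `q ≠ p` fixes roots of unity of `p`-power order. -/
theorem padicCyc_inertia {q : ℕ} (hq : q.Prime) (hqp : q ≠ p) {A : ValuationSubring ℚbar}
    (hA : A.LiesOverPrime q) {σ : Γℚ} (hσ : σ ∈ A.inertiaSubgroupIn ℚ) :
    RT.padicCyc (p := p) σ = 1 := by
  refine PadicInt.ext_of_toZModPow.mp fun n => ?_
  have : NeZero (p ^ n) := ⟨pow_ne_zero _ (Fact.out : p.Prime).ne_zero⟩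
  obtain ⟨z, hz⟩ := RT.exists_primitive_level (p ^ n)
  have : FiniteDimensional ℚ (⊥ : IntermediateField ℚ ℚbar) := inferInstance
  have hfix : σ z = z :=
    Fermat.CFT.apply_eq_of_inertia_pow (K := (⊥ : IntermediateField ℚ ℚbar)) hq hA hqp
      (a := 1) one_ne_zero (by simp) (by rw [hz.pow_eq_one]; rfl) hσ
      (by rw [IntermediateField.fixingSubgroup_bot]; exact Subgroup.mem_top _)
  have h1 : z ^ ((RT.padicCyc (p := p) σ).toZModPow n).val = z ^ 1 := by
    rw [pow_one, ← RT.apply_eq_pow_padicCyc (p := p) σ hz.pow_eq_one]; exact hfix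
  have h2 := (hz.isOfFinOrder (NeZero.ne _)).pow_inj_mod.mp h1
  rw [← hz.eq_orderOf, ← ZMod.natCast_eq_natCast_iff', ZMod.natCast_zmod_val, Nat.cast_one] at h2
  rw [map_one]
  exact h2

/-- The determinant of a Hecke representation is one on inertia at `q ≠ p`. -/
theorem det_inertia [Finite (IsLocalRing.ResidueField 𝒪)]
    (hp𝒪 : (p : 𝒪) ∈ IsLocalRing.maximalIdeal 𝒪)
    (hNS : ∀ q : ℕ, q.Prime → q ∣ N → q ∈ S)
    (H : CuspForm.HeckeGaloisRepDatum N (↑S : Set ℕ) 𝒪 θ T)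
    {q : ℕ} (hq : q.Prime) (hqp : q ≠ p) {A : ValuationSubring ℚbar}
    (hA : A.LiesOverPrime q) {σ : Γℚ} (hσ : σ ∈ A.inertiaSubgroupIn ℚ) :
    (matOf H.ρ (someBasis H.ρ) σ).det = 1 := by
  have : Finite (IsLocalRing.ResidueField T) := Finite.of_surjective
    (IsLocalRing.ResidueField.map (algebraMap 𝒪 T)) fun y => by
      obtain ⟨o, ho⟩ := H.residue_surjective y
      exact ⟨IsLocalRing.residue 𝒪 o, ho⟩
  have : IsHausdorff (IsLocalRing.maximalIdeal T) T := inferInstance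
  rw [RT.det_eq_cycO hp𝒪 (matCont_matOf H.ρ (someBasis H.ρ)) S
    (fun ℓ hℓ hℓS P hP φ hφ => ?_) σ]
  · change algebraMap 𝒪 T (Fermat.GR.padicToAdic 𝒪 hp𝒪 (RT.padicCyc σ)) = 1
    rw [padicCyc_inertia hq hqp hA hσ, map_one, map_one]
  · have hℓN : ¬ ℓ ∣ N := fun h => hℓS (hNS ℓ hℓ h)
    have hcp := H.charpoly_frob ℓ hℓ hℓN hℓS P hP φ hφ
    rw [← LinearMap.charpoly_toMatrix (H.ρ.ρ φ) (someBasis H.ρ), ← matOf_apply] at hcp
    exact (trace_det_of_charpoly_matrix hcp).2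

/-- **Unipotent inertia on Hecke representations from unipotent inertia on the torsion.** -/
theorem isUnipotentOnInertiaAt_of_inertiaSq [Finite (IsLocalRing.ResidueField 𝒪)]
    (D₀ : ESInput N p) (hp𝒪 : (p : 𝒪) ∈ IsLocalRing.maximalIdeal 𝒪) (hpS : p ∈ S)
    (hNS : ∀ q : ℕ, q.Prime → q ∣ N → q ∈ S)
    (H : CuspForm.HeckeGaloisRepDatum N (↑S : Set ℕ) 𝒪 θ T)
    {q : ℕ} (hq : q.Prime) (hqp : q ≠ p)
    (hsq : ∀ P : ValuationSubring ℚbar, P.LiesOverPrime q → ∀ σ ∈ P.inertiaSubgroupIn ℚ,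
      InertiaSq N p σ) :
    H.ρ.IsUnipotentOnInertiaAt q := by
  intro A hA σ hσ
  set r : Γℚ →* Matrix (Fin 2) (Fin 2) T := matOf H.ρ (someBasis H.ρ) with hr
  have hd : (r σ).det = 1 := det_inertia hp𝒪 hNS H hq hqp hA hσ
  have ht : (r σ).trace = 2 := by
    refine trace_eq_two (span_matOf_eq_top H) hd fun g => ?_
    have h := trace_sq D₀ hp𝒪 hpS hNS H (hsq A hA σ hσ) g
    simp only [← hr, map_mul] at h
    exact h
  rw [← LinearMap.charpoly_toMatrix (H.ρ.ρ σ) (someBasis H.ρ), ← matOf_apply, ← hr,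
    Matrix.charpoly_fin_two, ht, hd, map_one, map_ofNat]
  ring

end Fermat.HT.Unip

end
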